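import Mathlib

set_option autoImplicit false

universe v u

open CategoryTheory Abelian IsLocalRing RingTheory.Sequence Pointwise

namespace Fermat.Agent.S57.Descent

variable {A : Type u} [CommRing A] [Small.{v} A]

/-- Iterated quotient of a module by a list of elements. -/
noncomputable def iterQuot : List A → ModuleCat.{v} A → ModuleCat.{v} A
  | [], M => M
  | r :: rs, M => iterQuot rs (ModuleCat.of A (QuotSMulTop r M))

omit [Small.{v} A] in
lemma iterQuot_finite (rs : List A) (M : ModuleCat.{v} A) [Module.Finite A M] :
    Module.Finite A (iterQuot rs M) := by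
  induction rs generalizing M with
  | nil => simpa [iterQuot]
  | cons r rs ih =>
    have : Module.Finite A (ModuleCat.of A (QuotSMulTop r M)) :=
      inferInstanceAs (Module.Finite A (QuotSMulTop r M))
    exact ih (ModuleCat.of A (QuotSMulTop r M))

omit [Small.{v} A] in
/-- Every element of the list kills the iterated quotient. -/
lemma iterQuot_smul_eq_zero (rs : List A) (M : ModuleCat.{v} A) (a : A)
    (h : (∀ m : M, a • m = 0) ∨ a ∈ rs) : ∀ m : iterQuot rs M, a • m = 0 := by
  induction rs generalizing M with
  | nil =>
    rcases h with h | h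
    · exact h
    · simp at h
  | cons r rs ih =>
    apply ih (ModuleCat.of A (QuotSMulTop r M))
    rcases h with h | h
    · left
      intro m
      obtain ⟨m, rfl⟩ := Submodule.Quotient.mk_surjective _ m
      change a • Submodule.Quotient.mk m = 0
      rw [← Submodule.Quotient.mk_smul, h m, Submodule.Quotient.mk_zero]
    · rcases List.mem_cons.mp h with rfl | h
      · left
        intro m
        obtain ⟨m, rfl⟩ := Submodule.Quotient.mk_surjective _ m
        change a • Submodule.Quotient.mk m = 0
        rw [← Submodule.Quotient.mk_smul, Submodule.Quotient.mk_eq_zero]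
        exact Submodule.smul_mem_pointwise_smul m a ⊤ trivial
      · right; exact h

variable [IsLocalRing A] [IsNoetherianRing A]

set_option backward.isDefEq.respectTransparency false in
/-- Nakayama ladder step in the first variable. -/
lemma ext_subsingleton_of_quotSMulTop (M N : ModuleCat.{v} A) [Module.Finite A M]
    [Module.Finite A N] (x : A) (hx : x ∈ maximalIdeal A) (reg : IsSMulRegular M x) (n : ℕ)
    (h : ∀ i < n + 1, Subsingleton (Ext (ModuleCat.of A (QuotSMulTop x M)) N i)) :
    ∀ i < n, Subsingleton (Ext M N i) := by
  intro i hi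
  let S := M.smulShortComplex x
  have hS : S.ShortExact := reg.smulShortComplex_shortExact
  have zero := h (i + 1) (by omega)
  have exac := Ext.contravariant_sequence_exact₁' hS N i (i + 1) (add_comm 1 i)
  have epi := exac.epi_f ((@AddCommGrpCat.isZero_of_subsingleton _ zero).eq_zero_of_tgt _)
  have : S.f = x • 𝟙 M := rfl
  simp only [S, this, AddCommGrpCat.epi_iff_surjective, AddCommGrpCat.hom_ofHom] at epi
  by_contra! ntr
  have : x ∈ (Module.annihilator A (Ext M N i)).jacobson :=
    (IsLocalRing.maximalIdeal_le_jacobson _) hx
  absurd Submodule.top_ne_pointwise_smul_of_mem_jacobson_annihilator this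
  rw [eq_comm, eq_top_iff]
  intro y hy
  rcases epi y with ⟨z, hz⟩
  simp only [ModuleCat.smulShortComplex, Ext.mk₀_smul,
    Ext.bilinearComp_apply_apply, Ext.smul_comp, Ext.mk₀_id_comp] at hz
  simpa [← hz] using Submodule.smul_mem_pointwise_smul _ _ ⊤ trivial

omit [IsLocalRing A] [IsNoetherianRing A] in
/-- Long exact sequence step in the second variable. -/
lemma ext_quotSMulTop_subsingleton (M N : ModuleCat.{v} A)
    (x : A) (reg : IsSMulRegular N x) (n : ℕ)
    (h : ∀ i < n + 1, Subsingleton (Ext M N i)) :
    ∀ i < n, Subsingleton (Ext M (ModuleCat.of A (QuotSMulTop x N)) i) := by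
  intro i hi
  have zero1 := AddCommGrpCat.isZero_of_iff_subsingleton.mpr (h i (by omega))
  have zero2 := AddCommGrpCat.isZero_of_iff_subsingleton.mpr (h (i + 1) (by omega))
  exact AddCommGrpCat.subsingleton_of_isZero <| ShortComplex.Exact.isZero_of_both_zeros
    ((Ext.covariant_sequence_exact₃' M reg.smulShortComplex_shortExact) i (i + 1) rfl)
    (zero1.eq_zero_of_src _) (zero2.eq_zero_of_tgt _)

/-- Descending ladder along a list. -/
lemma ext_subsingleton_of_iterQuot (rs : List A) (hrs : ∀ r ∈ rs, r ∈ maximalIdeal A)
    (M N : ModuleCat.{v} A) [Module.Finite A M] [Module.Finite A N]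
    (reg : IsWeaklyRegular M rs) (k : ℕ)
    (h : ∀ i < rs.length + k, Subsingleton (Ext (iterQuot rs M) N i)) :
    ∀ i < k, Subsingleton (Ext M N i) := by
  induction rs generalizing M k with
  | nil => simpa [iterQuot] using h
  | cons r rs ih =>
    rw [isWeaklyRegular_cons_iff] at reg
    have : Module.Finite A (ModuleCat.of A (QuotSMulTop r M)) :=
      inferInstanceAs (Module.Finite A (QuotSMulTop r M))
    have h1 : ∀ i < k + 1, Subsingleton (Ext (ModuleCat.of A (QuotSMulTop r M)) N i) := by
      apply ih (fun s hs => hrs s (List.mem_cons_of_mem _ hs))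
        (ModuleCat.of A (QuotSMulTop r M)) reg.2 (k + 1)
      intro i hi
      exact h i (by simp only [List.length_cons]; omega)
    exact ext_subsingleton_of_quotSMulTop M N r (hrs r List.mem_cons_self) reg.1 k h1

/-- Main lemma: a sequence that is regular on `M` with vanishing `Ext` from the iterated quotient
is regular on `N`, provided every cyclic submodule of `N` is the image of a map from `M`. -/
lemma isWeaklyRegular_of_ext_subsingleton (rs : List A) (hrs : ∀ r ∈ rs, r ∈ maximalIdeal A)
    (M N : ModuleCat.{v} A) [Module.Finite A M] [Module.Finite A N]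
    (regM : IsWeaklyRegular M rs)
    (H : ∀ n : N, ∃ f : M →ₗ[A] N, LinearMap.range f = Submodule.span A {n})
    (h : ∀ i < rs.length, Subsingleton (Ext (iterQuot rs M) N i)) :
    IsWeaklyRegular N rs := by
  induction rs generalizing M N with
  | nil => exact IsWeaklyRegular.nil A N
  | cons r rs ih =>
    rw [isWeaklyRegular_cons_iff] at regM ⊢
    have hrs' : ∀ s ∈ rs, s ∈ maximalIdeal A := fun s hs => hrs s (List.mem_cons_of_mem _ hs)
    have finM : Module.Finite A (ModuleCat.of A (QuotSMulTop r M)) :=
      inferInstanceAs (Module.Finite A (QuotSMulTop r M))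
    have finN : Module.Finite A (ModuleCat.of A (QuotSMulTop r N)) :=
      inferInstanceAs (Module.Finite A (QuotSMulTop r N))
    have h0 : Subsingleton (Ext (ModuleCat.of A (QuotSMulTop r M)) N 0) :=
      ext_subsingleton_of_iterQuot rs hrs' (ModuleCat.of A (QuotSMulTop r M)) N regM.2 1
        (by simpa [iterQuot] using h) 0 Nat.zero_lt_one
    have : Subsingleton ((ModuleCat.of A (QuotSMulTop r M)) ⟶ N) :=
      Ext.addEquiv₀.subsingleton_congr.mp h0
    have hom0 : Subsingleton (QuotSMulTop r M →ₗ[A] N) :=
      (ModuleCat.homAddEquiv (M := ModuleCat.of A (QuotSMulTop r M)) (N := N)).symm.subsingleton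
    have regN : IsSMulRegular N r := by
      rw [isSMulRegular_iff_right_eq_zero_of_smul]
      intro n hn
      obtain ⟨f, hf⟩ := H n
      have hle : r • (⊤ : Submodule A M) ≤ LinearMap.ker f := by
        intro m hm
        obtain ⟨m', -, rfl⟩ := (Submodule.mem_smul_pointwise_iff_exists _ _ _).mp hm
        have h1 : f m' ∈ Submodule.span A {n} := hf ▸ LinearMap.mem_range_self f m'
        obtain ⟨a, ha⟩ := Submodule.mem_span_singleton.mp h1
        rw [LinearMap.mem_ker, map_smul, ← ha, smul_comm, hn, smul_zero]
      let g : QuotSMulTop r M →ₗ[A] N := Submodule.liftQ _ f hle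
      have hg : g = 0 := Subsingleton.elim _ _
      have hf0 : f = 0 := by
        ext m
        have := congrArg (fun g : QuotSMulTop r M →ₗ[A] N => g (Submodule.Quotient.mk m)) hg
        simpa [g] using this
      have hn' : n ∈ LinearMap.range f := by
        rw [hf]; exact Submodule.mem_span_singleton_self n
      simpa [hf0] using hn'
    refine ⟨regN, ?_⟩
    apply ih hrs' (ModuleCat.of A (QuotSMulTop r M)) (ModuleCat.of A (QuotSMulTop r N)) regM.2
    · intro n
      obtain ⟨n, rfl⟩ := Submodule.Quotient.mk_surjective _ n
      obtain ⟨f, hf⟩ := H n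
      have hle : r • (⊤ : Submodule A M) ≤ (r • (⊤ : Submodule A N)).comap f := by
        intro m hm
        obtain ⟨m', -, rfl⟩ := (Submodule.mem_smul_pointwise_iff_exists _ _ _).mp hm
        rw [Submodule.mem_comap, map_smul]
        exact Submodule.smul_mem_pointwise_smul _ r ⊤ trivial
      refine ⟨Submodule.mapQ _ _ f hle, ?_⟩
      have h1 : (Submodule.mapQ _ _ f hle).comp (Submodule.mkQ (r • (⊤ : Submodule A M))) =
          (Submodule.mkQ (r • (⊤ : Submodule A N))).comp f := by
        ext m; simp
      have h2 : LinearMap.range (Submodule.mapQ _ _ f hle) =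
          LinearMap.range ((Submodule.mapQ _ _ f hle).comp
            (Submodule.mkQ (r • (⊤ : Submodule A M)))) := by
        rw [LinearMap.range_comp_of_range_eq_top _ (Submodule.range_mkQ _)]
      rw [h2, h1, LinearMap.range_comp, hf, Submodule.map_span, Set.image_singleton]
      rfl
    · exact ext_quotSMulTop_subsingleton _ N r regN rs.length (by simpa [iterQuot] using h)

end Fermat.Agent.S57.Descent
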