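import Mathlib

set_option autoImplicit false

universe u

open IsLocalRing RingTheory.Sequence Pointwise

namespace Fermat.Agent.S57.Descent

/-- A finite module over a Noetherian local ring whose maximal ideal is generated by a
sequence that is weakly regular on the module is free. -/
theorem free_of_isWeaklyRegular_of_ofList_eq_maximalIdeal :
    ∀ (n : ℕ) (A : Type u) [CommRing A] [IsLocalRing A] [IsNoetherianRing A]
      (N : Type u) [AddCommGroup N] [Module A N] [Module.Finite A N] (rs : List A),
      rs.length = n → IsWeaklyRegular N rs → Ideal.ofList rs = maximalIdeal A →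
      Module.Free A N := by
  intro n
  induction n with
  | zero =>
    intro A _ _ _ N _ _ _ rs hlen _ hm
    have hrs : rs = [] := List.length_eq_zero_iff.mp hlen
    subst hrs
    rw [Ideal.ofList_nil] at hm
    have hF : IsField A := (IsLocalRing.isField_iff_maximalIdeal_eq).mpr hm.symm
    let := hF.toField
    exact Module.Free.of_divisionRing A N
  | succ n ih =>
    intro A _ _ _ N _ _ _ rs hlen hreg hm
    match rs, hlen, hreg, hm with
    | x :: rs', hlen, hreg, hm =>
      rw [isWeaklyRegular_cons_iff] at hreg
      have hxm : x ∈ maximalIdeal A := by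
        rw [← hm]
        exact Ideal.subset_span List.mem_cons_self
      have hne : Ideal.span {x} ≠ ⊤ := by
        intro h
        have : maximalIdeal A = ⊤ := top_unique (h ▸ (Ideal.span_singleton_le_iff_mem _).mpr hxm)
        exact (maximalIdeal.isMaximal A).ne_top this
      have : Nontrivial (A ⧸ Ideal.span {x}) := Ideal.Quotient.nontrivial_iff.mpr hne
      have : IsLocalRing (A ⧸ Ideal.span {x}) :=
        IsLocalRing.of_surjective' (Ideal.Quotient.mk (Ideal.span {x})) Ideal.Quotient.mk_surjective
      have := Module.Finite.of_restrictScalars_finite A (A ⧸ Ideal.span {x}) (QuotSMulTop x N)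
      have hreg' : IsWeaklyRegular (QuotSMulTop x N)
          (rs'.map (algebraMap A (A ⧸ Ideal.span {x}))) :=
        (isWeaklyRegular_map_algebraMap_iff (A ⧸ Ideal.span {x}) (QuotSMulTop x N) rs').mpr hreg.2
      have hm' : Ideal.ofList (rs'.map (algebraMap A (A ⧸ Ideal.span {x}))) =
          maximalIdeal (A ⧸ Ideal.span {x}) := by
        rw [← Ideal.map_ofList]
        have h1 : (maximalIdeal A).map (algebraMap A (A ⧸ Ideal.span {x})) =
            maximalIdeal (A ⧸ Ideal.span {x}) :=
          IsLocalRing.map_maximalIdeal_of_surjective _ Ideal.Quotient.mk_surjective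
        rw [← h1, ← hm, Ideal.ofList_cons, Ideal.map_sup]
        have h2 : (Ideal.span {x}).map (algebraMap A (A ⧸ Ideal.span {x})) = ⊥ := by
          rw [Ideal.map_span, Set.image_singleton]
          simp
        rw [h2, bot_sup_eq]
      have := Module.finitePresentation_of_finite A N
      have hfree := ih (A ⧸ Ideal.span {x}) (QuotSMulTop x N) _ (by simpa using hlen) hreg' hm'
      exact (Module.free_quotSMulTop_iff_free A N
        ((IsLocalRing.maximalIdeal_le_jacobson _) hxm) hreg.1).mp hfree

end Fermat.Agent.S57.Descent
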