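import Mathlib

set_option autoImplicit false

open IsLocalRing RingTheory.Sequence Pointwise

namespace Fermat.Agent.S57.Descent

/-- Prepending a regular generator of the kernel of a surjection to a lift of a weakly
regular sequence gives a weakly regular sequence. -/
lemma isWeaklyRegular_cons_of_surjective {B A : Type*} [CommRing B] [CommRing A]
    (q : B →+* A) (hq : Function.Surjective q) (x : B)
    (hker : RingHom.ker q = Ideal.span {x}) (hx : IsSMulRegular B x) (rs : List B)
    (h : IsWeaklyRegular A (rs.map q)) : IsWeaklyRegular B (x :: rs) := by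
  rw [isWeaklyRegular_cons_iff]
  refine ⟨hx, ?_⟩
  let := q.toAlgebra
  have h1 : IsWeaklyRegular A rs := (isWeaklyRegular_map_algebraMap_iff A A rs).mp h
  have heq : x • (⊤ : Submodule B B) = LinearMap.ker (Algebra.linearMap B A) := by
    ext b
    rw [LinearMap.mem_ker, Algebra.linearMap_apply]
    change _ ↔ b ∈ RingHom.ker q
    rw [hker, Ideal.mem_span_singleton, Submodule.mem_smul_pointwise_iff_exists]
    constructor
    · rintro ⟨c, -, rfl⟩
      exact ⟨c, rfl⟩
    · rintro ⟨c, rfl⟩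
      exact ⟨c, trivial, rfl⟩
  have e : QuotSMulTop x B ≃ₗ[B] A :=
    (Submodule.quotEquivOfEq _ _ heq).trans
      (LinearMap.quotKerEquivOfSurjective (Algebra.linearMap B A) hq)
  exact (e.isWeaklyRegular_congr rs).mpr h1

lemma ofList_cons_eq_maximalIdeal_of_surjective {B A : Type*} [CommRing B] [CommRing A]
    [IsLocalRing B] [IsLocalRing A]
    (q : B →+* A) (hq : Function.Surjective q) (x : B)
    (hker : RingHom.ker q = Ideal.span {x}) (rs : List B)
    (h : Ideal.ofList (rs.map q) = maximalIdeal A) :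
    Ideal.ofList (x :: rs) = maximalIdeal B := by
  have : IsLocalHom q := hq.isLocalHom
  rw [← IsLocalRing.maximalIdeal_comap q, ← h, ← Ideal.map_ofList,
    Ideal.comap_map_of_surjective q hq, Ideal.ofList_cons, ← RingHom.ker_eq_comap_bot, hker,
    sup_comm]

/-- The sequence `X_0, …, X_{r-1}, ϖ` in `𝒪⟦X_0, …, X_{r-1}⟧`. -/
noncomputable def paramSeq (𝒪 : Type*) [CommRing 𝒪] (ϖ : 𝒪) (r : ℕ) :
    List (MvPowerSeries (Fin r) 𝒪) :=
  List.ofFn (fun i : Fin r => (MvPowerSeries.X i : MvPowerSeries (Fin r) 𝒪)) ++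
    [MvPowerSeries.C ϖ]

theorem paramSeq_isWeaklyRegular_and_ofList (𝒪 : Type*) [CommRing 𝒪] [IsDomain 𝒪]
    [IsLocalRing 𝒪] (ϖ : 𝒪) (hϖ : ϖ ≠ 0) (hm : maximalIdeal 𝒪 = Ideal.span {ϖ}) (r : ℕ) :
    IsWeaklyRegular (MvPowerSeries (Fin r) 𝒪) (paramSeq 𝒪 ϖ r) ∧
      Ideal.ofList (paramSeq 𝒪 ϖ r) = maximalIdeal (MvPowerSeries (Fin r) 𝒪) := by
  induction r with
  | zero =>
    have hlist : paramSeq 𝒪 ϖ 0 = [MvPowerSeries.C ϖ] := by
      simp [paramSeq]
    rw [hlist]
    constructor
    · rw [isWeaklyRegular_cons_iff]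
      refine ⟨IsSMulRegular.of_ne_zero ?_, IsWeaklyRegular.nil _ _⟩
      intro h
      apply hϖ
      have := congrArg (MvPowerSeries.constantCoeff (σ := Fin 0) (R := 𝒪)) h
      simpa using this
    · let e : MvPowerSeries (Fin 0) 𝒪 ≃+* 𝒪 := (MvPowerSeries.isEmptyEquiv (Fin 0) 𝒪).toRingEquiv
      have h1 := IsLocalRing.map_ringEquiv_maximalIdeal e.symm
      rw [← h1, hm, Ideal.map_span, Set.image_singleton]
      simp [Ideal.ofList, e]
  | succ n ih =>
    let q : MvPowerSeries (Fin (n + 1)) 𝒪 →+* MvPowerSeries (Fin n) 𝒪 :=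
      (PowerSeries.constantCoeff (R := MvPowerSeries (Fin n) 𝒪)).comp
        (MvPowerSeries.finSuccEquiv 𝒪 n).toRingEquiv.toRingHom
    have hq : Function.Surjective q := by
      intro f
      refine ⟨(MvPowerSeries.finSuccEquiv 𝒪 n).symm (PowerSeries.C f), ?_⟩
      simp [q]
    have hqX : ∀ i : Fin n, q (MvPowerSeries.X i.succ) = MvPowerSeries.X i := by
      intro i
      simp [q]
    have hqC : q (MvPowerSeries.C ϖ) = MvPowerSeries.C ϖ := by
      simp [q]
    have hker : RingHom.ker q =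
        Ideal.span {(MvPowerSeries.X 0 : MvPowerSeries (Fin (n + 1)) 𝒪)} := by
      ext f
      rw [RingHom.mem_ker, Ideal.mem_span_singleton]
      change PowerSeries.constantCoeff (MvPowerSeries.finSuccEquiv 𝒪 n f) = 0 ↔ _
      rw [← PowerSeries.X_dvd_iff, ← MvPowerSeries.finSuccEquiv_X_zero (R := 𝒪) (n := n)]
      constructor
      · rintro ⟨c, hc⟩
        refine ⟨(MvPowerSeries.finSuccEquiv 𝒪 n).symm c, ?_⟩
        apply (MvPowerSeries.finSuccEquiv 𝒪 n).injective
        rw [hc, map_mul, AlgEquiv.apply_symm_apply]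
      · rintro ⟨c, rfl⟩
        exact ⟨MvPowerSeries.finSuccEquiv 𝒪 n c, by rw [map_mul]⟩
    have hlist : paramSeq 𝒪 ϖ (n + 1) =
        (MvPowerSeries.X 0 : MvPowerSeries (Fin (n + 1)) 𝒪) ::
          (List.ofFn (fun i : Fin n => (MvPowerSeries.X i.succ : MvPowerSeries (Fin (n + 1)) 𝒪))
            ++ [MvPowerSeries.C ϖ]) := by
      simp [paramSeq, List.ofFn_succ]
    have hmap : (List.ofFn (fun i : Fin n =>
          (MvPowerSeries.X i.succ : MvPowerSeries (Fin (n + 1)) 𝒪))
            ++ [MvPowerSeries.C ϖ]).map q = paramSeq 𝒪 ϖ n := by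
      rw [List.map_append, List.map_ofFn, paramSeq]
      congr 1
      · congr 1
        funext i
        exact hqX i
      · simp [hqC]
    have hX0 : IsSMulRegular (MvPowerSeries (Fin (n + 1)) 𝒪)
        (MvPowerSeries.X 0 : MvPowerSeries (Fin (n + 1)) 𝒪) := by
      refine IsSMulRegular.of_ne_zero ?_
      intro h
      have := congrArg (MvPowerSeries.coeff (R := 𝒪) (Finsupp.single (0 : Fin (n + 1)) 1)) h
      simp [MvPowerSeries.coeff_X] at this
    rw [hlist]
    exact ⟨isWeaklyRegular_cons_of_surjective q hq _ hker hX0 _ (hmap ▸ ih.1),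
      ofList_cons_eq_maximalIdeal_of_surjective q hq _ hker _ (hmap ▸ ih.2)⟩

end Fermat.Agent.S57.Descent
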