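import Mathlib
import Fermat.Agent.S57.ExtLadder
import Fermat.Agent.S57.FreeOfRegular
import Fermat.Agent.S57.PowerSeriesRegular

set_option autoImplicit false

open IsLocalRing RingTheory.Sequence Pointwise CategoryTheory Abelian

namespace Fermat.Agent.S57.Descent

/-- An `𝒪`-algebra endomorphism of a power series ring over a local ring is local. -/
lemma algHom_mem_maximalIdeal {𝒪 : Type*} [CommRing 𝒪] [IsLocalRing 𝒪] {σ : Type*}
    (φ : MvPowerSeries σ 𝒪 →ₐ[𝒪] MvPowerSeries σ 𝒪) (f : MvPowerSeries σ 𝒪)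
    (hf : f ∈ maximalIdeal (MvPowerSeries σ 𝒪)) : φ f ∈ maximalIdeal (MvPowerSeries σ 𝒪) := by
  rw [mem_maximalIdeal, mem_nonunits_iff] at hf ⊢
  intro hu
  rw [MvPowerSeries.isUnit_iff_constantCoeff] at hf hu
  set c := MvPowerSeries.constantCoeff (φ f) with hc
  have hg : IsUnit (f - MvPowerSeries.C c) := by
    rw [MvPowerSeries.isUnit_iff_constantCoeff, map_sub, MvPowerSeries.constantCoeff_C]
    by_contra hn
    apply hf
    have h1 : MvPowerSeries.constantCoeff f - c ∈ maximalIdeal 𝒪 := hn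
    have h2 : MvPowerSeries.constantCoeff f ∈ maximalIdeal 𝒪 := hf
    have h3 : c ∈ maximalIdeal 𝒪 := by
      have := sub_mem h2 h1
      simpa using this
    exact absurd hu h3
  have hg' : IsUnit (φ (f - MvPowerSeries.C c)) := hg.map φ
  rw [MvPowerSeries.isUnit_iff_constantCoeff, map_sub] at hg'
  have hC : φ (MvPowerSeries.C c) = MvPowerSeries.C c := by
    have := φ.commutes c
    simpa [MvPowerSeries.algebraMap_apply] using this
  rw [hC, map_sub, MvPowerSeries.constantCoeff_C, ← hc, sub_self] at hg'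
  exact not_isUnit_zero hg'

/-- Core freeness statement: a module over `S = 𝒪⟦X₁,…,X_r⟧` that is free of finite rank over
`S` through an `𝒪`-algebra endomorphism `φ` is free over `S`. -/
theorem free_of_free_via_algHom {𝒪 : Type} [CommRing 𝒪] [IsDomain 𝒪] [IsDiscreteValuationRing 𝒪]
    {r : ℕ} (N : Type) [AddCommGroup N] [Module (MvPowerSeries (Fin r) 𝒪) N] [Nontrivial N]
    (φ : MvPowerSeries (Fin r) 𝒪 →ₐ[𝒪] MvPowerSeries (Fin r) 𝒪)
    (d : ℕ) (b : Fin d → N)
    (b_span : ∀ x : N, ∃ c : Fin d → MvPowerSeries (Fin r) 𝒪, x = ∑ i, φ (c i) • b i)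
    (b_rel : ∀ c : Fin d → MvPowerSeries (Fin r) 𝒪, ∑ i, φ (c i) • b i = 0 → ∀ i, c i = 0) :
    Module.Free (MvPowerSeries (Fin r) 𝒪) N ∧ Module.Finite (MvPowerSeries (Fin r) 𝒪) N := by
  classical
  obtain ⟨ϖ, hϖ⟩ := IsDiscreteValuationRing.exists_irreducible 𝒪
  have hm : maximalIdeal 𝒪 = Ideal.span {ϖ} := hϖ.maximalIdeal_eq
  obtain ⟨hreg, hgen⟩ := paramSeq_isWeaklyRegular_and_ofList 𝒪 ϖ hϖ.ne_zero hm r
  set S := MvPowerSeries (Fin r) 𝒪 with hS
  -- the semilinear equivalence `S^d ≃ N`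
  let e₀ : (Fin d → S) →+ N :=
    { toFun := fun c => ∑ i, φ (c i) • b i
      map_zero' := by simp
      map_add' := fun c c' => by simp [add_smul, Finset.sum_add_distrib] }
  have e₀_inj : Function.Injective e₀ := by
    rw [injective_iff_map_eq_zero]
    intro c hc
    funext i
    exact b_rel c hc i
  have e₀_surj : Function.Surjective e₀ := by
    intro x
    obtain ⟨c, hc⟩ := b_span x
    exact ⟨c, hc.symm⟩
  let e : (Fin d → S) ≃+ N := AddEquiv.ofBijective e₀ ⟨e₀_inj, e₀_surj⟩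
  have he : ∀ (f : S) (c : Fin d → S), e (f • c) = φ f • e c := by
    intro f c
    change ∑ i, φ ((f • c) i) • b i = φ f • ∑ i, φ (c i) • b i
    rw [Finset.smul_sum]
    refine Finset.sum_congr rfl fun i _ => ?_
    rw [Pi.smul_apply, smul_eq_mul, map_mul, mul_smul]
  -- finiteness
  have hfin : Module.Finite S N := by
    refine ⟨⟨Finset.univ.image b, ?_⟩⟩
    rw [eq_top_iff]
    intro x _
    obtain ⟨c, rfl⟩ := b_span x
    refine Submodule.sum_mem _ fun i _ => Submodule.smul_mem _ _ (Submodule.subset_span ?_)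
    simp
  refine ⟨?_, hfin⟩
  -- the sequence `φ(paramSeq)` is regular on `N`
  have hregFree : IsWeaklyRegular (Fin d → S) (paramSeq 𝒪 ϖ r) :=
    ((TensorProduct.lid S (Fin d → S)).isWeaklyRegular_congr _).mp
      (hreg.isWeaklyRegular_rTensor (M₂ := Fin d → S))
  have hregN : IsWeaklyRegular N ((paramSeq 𝒪 ϖ r).map φ) :=
    (e.isWeaklyRegular_congr (List.forall₂_map_right_iff.mpr
      (List.forall₂_same.mpr fun f _ c => he f c))).mp hregFree
  have hmem : ∀ x ∈ paramSeq 𝒪 ϖ r, x ∈ maximalIdeal S := by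
    intro x hx
    rw [← hgen]
    exact Ideal.subset_span hx
  have hmemφ : ∀ x ∈ (paramSeq 𝒪 ϖ r).map φ, x ∈ maximalIdeal S := by
    intro x hx
    obtain ⟨y, hy, rfl⟩ := List.mem_map.mp hx
    exact algHom_mem_maximalIdeal φ y (hmem y hy)
  have hRegN : IsRegular N ((paramSeq 𝒪 ϖ r).map φ) :=
    IsRegular.of_isWeaklyRegular_of_mem_maximalIdeal N hmemφ hregN
  -- vanishing of Ext
  let N' : ModuleCat.{0} S := ModuleCat.of S N
  let S' : ModuleCat.{0} S := ModuleCat.of S S
  have finN' : Module.Finite S N' := hfin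
  have finS' : Module.Finite S S' := inferInstanceAs (Module.Finite S S)
  have finQ : Module.Finite S (iterQuot (paramSeq 𝒪 ϖ r) S') := iterQuot_finite _ _
  have hsupp : Module.support S (iterQuot (paramSeq 𝒪 ϖ r) S') ⊆
      PrimeSpectrum.zeroLocus (maximalIdeal S) := by
    rw [Module.support_eq_zeroLocus]
    apply PrimeSpectrum.zeroLocus_anti_mono_ideal
    rw [← hgen]
    refine Ideal.span_le.mpr fun x hx => ?_
    rw [SetLike.mem_coe, Module.mem_annihilator]
    exact iterQuot_smul_eq_zero _ _ x (Or.inr hx)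
  have hlt : maximalIdeal S • (⊤ : Submodule S N') < ⊤ := by
    rw [lt_top_iff_ne_top]
    exact (Submodule.top_ne_ideal_smul_of_le_jacobson_annihilator
      (maximalIdeal_le_jacobson _)).symm
  have hext : ∀ i < (paramSeq 𝒪 ϖ r).length,
      Subsingleton (Ext (iterQuot (paramSeq 𝒪 ϖ r) S') N' i) := by
    have := ModuleCat.subsingleton_ext_of_exists_isRegular (maximalIdeal S)
      (iterQuot (paramSeq 𝒪 ϖ r) S') hsupp N' hlt ((paramSeq 𝒪 ϖ r).map φ) hmemφ hRegN
    simpa using this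
  have hNreg : IsWeaklyRegular N (paramSeq 𝒪 ϖ r) := by
    refine isWeaklyRegular_of_ext_subsingleton (paramSeq 𝒪 ϖ r) hmem S' N' hreg ?_ hext
    intro n
    exact ⟨LinearMap.toSpanSingleton S N n, (LinearMap.span_singleton_eq_range S N n).symm⟩
  exact free_of_isWeaklyRegular_of_ofList_eq_maximalIdeal _ S N (paramSeq 𝒪 ϖ r) rfl hNreg hgen

end Fermat.Agent.S57.Descent
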