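import Mathlib

set_option autoImplicit false

open RingTheory.Sequence

namespace Fermat.Agent.S57

/-- Membership in `I • ⊤` for a free module, in coordinates. -/
theorem mem_smul_top_iff_repr {A N : Type*} [CommRing A] [AddCommGroup N] [Module A N]
    {J : Type*} (e : Module.Basis J A N) (I : Ideal A) (x : N) :
    x ∈ I • (⊤ : Submodule A N) ↔ ∀ j, e.repr x j ∈ I := by
  rw [← e.span_eq, Submodule.mem_ideal_smul_span_iff_exists_sum]
  constructor
  · rintro ⟨a, ha, rfl⟩ j
    have h : (a.sum fun i c => c • e i) = e.repr.symm a := by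
      rw [Module.Basis.repr_symm_apply, Finsupp.linearCombination_apply]
    rw [h, LinearEquiv.apply_symm_apply]
    exact ha j
  · intro h
    exact ⟨e.repr x, h, by rw [← Finsupp.linearCombination_apply, e.linearCombination_repr]⟩

/-- Assembly step: if `N` is free over `A`, `M = N / I N` semilinearly over a surjection
`ψ : A → R` killing `I`, and `M ≠ 0`, then `M` is free and faithful over `R` and `ker ψ = I`. -/
theorem free_and_ker_of_free {A R N M : Type} [CommRing A] [CommRing R] [AddCommGroup N]
    [Module A N] [AddCommGroup M] [Module R M] [Nontrivial M] [Module.Free A N]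
    (ψ : A →+* R) (hψ : Function.Surjective ψ) (I : Ideal A) (hI : I ≤ RingHom.ker ψ)
    (π : N →+ M) (hπ : ∀ a x, π (a • x) = ψ a • π x) (hπs : Function.Surjective π)
    (hker : ∀ x, π x = 0 ↔ x ∈ I • (⊤ : Submodule A N)) :
    Module.Free R M ∧ Module.annihilator R M = ⊥ ∧ RingHom.ker ψ = I := by
  classical
  let e := Module.Free.chooseBasis A N
  have hNnt : Nontrivial N := by
    obtain ⟨m, hm⟩ := exists_ne (0 : M)
    obtain ⟨x, rfl⟩ := hπs m
    exact ⟨⟨x, 0, fun h => hm (by rw [h, map_zero])⟩⟩
  obtain ⟨j₀⟩ : Nonempty (Module.Free.ChooseBasisIndex A N) := e.index_nonempty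
  have key : ∀ a : A, (∀ m : M, ψ a • m = 0) → a ∈ I := by
    intro a ha
    have h1 : a • e j₀ ∈ I • (⊤ : Submodule A N) := (hker _).mp (by rw [hπ]; exact ha _)
    have h2 := (mem_smul_top_iff_repr e I _).mp h1 j₀
    simpa using h2
  have hkerψ : RingHom.ker ψ = I := by
    apply le_antisymm
    · intro a ha
      apply key
      intro m
      rw [RingHom.mem_ker.mp ha, zero_smul]
    · exact hI
  refine ⟨?_, ?_, hkerψ⟩
  · have hli : LinearIndependent R (fun j => π (e j)) := by
      rw [linearIndependent_iff]
      intro l hl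
      choose g hg using hψ
      let x : N := ∑ j ∈ l.support, g (l j) • e j
      have hx : π x = 0 := by
        rw [← hl, Finsupp.linearCombination_apply, Finsupp.sum, map_sum]
        refine Finset.sum_congr rfl fun j _ => ?_
        rw [hπ, hg]
      have hx2 := (mem_smul_top_iff_repr e I x).mp ((hker x).mp hx)
      ext j
      by_contra hj
      have hjs : j ∈ l.support := Finsupp.mem_support_iff.mpr hj
      have hrepr : e.repr x j = g (l j) := by
        simp only [x, map_sum, map_smul, Module.Basis.repr_self, Finsupp.coe_finsetSum,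
          Finsupp.coe_smul, Finset.sum_apply, Pi.smul_apply, smul_eq_mul]
        rw [Finset.sum_eq_single j]
        · simp
        · intro i _ hij
          simp [hij]
        · intro h
          exact absurd hjs h
      have h3 := hx2 j
      rw [hrepr] at h3
      have h4 := RingHom.mem_ker.mp (hI h3)
      rw [hg] at h4
      exact hj h4
    have hsp : ⊤ ≤ Submodule.span R (Set.range fun j => π (e j)) := by
      intro m _
      obtain ⟨x, rfl⟩ := hπs m
      have hx : x = ∑ j ∈ (e.repr x).support, e.repr x j • e j := by
        conv_lhs => rw [← e.linearCombination_repr x, Finsupp.linearCombination_apply,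
          Finsupp.sum]
      rw [hx, map_sum]
      refine Submodule.sum_mem _ fun j _ => ?_
      rw [hπ]
      exact Submodule.smul_mem _ _ (Submodule.subset_span ⟨j, rfl⟩)
    exact Module.Free.of_basis (Module.Basis.mk hli hsp)
  · rw [eq_bot_iff]
    intro ρ hρ
    obtain ⟨a, rfl⟩ := hψ ρ
    have h := key a (fun m => Module.mem_annihilator.mp hρ m)
    rw [Submodule.mem_bot]
    exact RingHom.mem_ker.mp (hI h)

/-- A module with a "`φ`-twisted basis" is finite. -/
theorem finite_of_twisted_span {A N : Type} [CommRing A] [AddCommGroup N] [Module A N]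
    (φ : A →+* A) {d : ℕ} (b : Fin d → N)
    (b_span : ∀ x : N, ∃ c : Fin d → A, x = ∑ i, φ (c i) • b i) : Module.Finite A N := by
  refine Module.Finite.of_surjective (Fintype.linearCombination A b) ?_
  intro x
  obtain ⟨c, rfl⟩ := b_span x
  exact ⟨fun i => φ (c i), by simp [Fintype.linearCombination_apply]⟩

/-- Transfer of weak regularity along a "`φ`-twisted basis": if `N` is free over `A` acting
through `φ : A → A` (with basis `b`), then an `A`-weakly regular sequence `xs` gives the
`N`-weakly regular sequence `xs.map φ`. -/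
theorem isWeaklyRegular_map_of_twisted_basis {A N : Type} [CommRing A] [AddCommGroup N]
    [Module A N] (φ : A →+* A) {d : ℕ} (b : Fin d → N)
    (b_span : ∀ x : N, ∃ c : Fin d → A, x = ∑ i, φ (c i) • b i)
    (b_rel : ∀ c : Fin d → A, ∑ i, φ (c i) • b i = 0 → ∀ i, c i = 0)
    (xs : List A) (hxs : IsWeaklyRegular A xs) : IsWeaklyRegular N (xs.map φ) := by
  -- step 1: weakly regular on the free module `Fin d → A`
  have h1 : IsWeaklyRegular (Fin d → A) xs :=
    ((TensorProduct.rid A (Fin d → A)).isWeaklyRegular_congr xs).mp
      (hxs.isWeaklyRegular_lTensor (M₂ := Fin d → A))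
  -- step 2: the twisted coordinate isomorphism
  let f : (Fin d → A) →+ N :=
    { toFun := fun c => ∑ i, φ (c i) • b i
      map_zero' := by simp
      map_add' := fun c c' => by simp [add_smul, Finset.sum_add_distrib] }
  have hf_inj : Function.Injective f := by
    rw [injective_iff_map_eq_zero]
    intro c hc
    funext i
    exact b_rel c hc i
  have hf_surj : Function.Surjective f := by
    intro x
    obtain ⟨c, rfl⟩ := b_span x
    exact ⟨c, rfl⟩
  let e : (Fin d → A) ≃+ N := AddEquiv.ofBijective f ⟨hf_inj, hf_surj⟩
  refine (e.isWeaklyRegular_congr (List.forall₂_map_right_iff.mpr <|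
    List.forall₂_same.mpr fun r _ c => ?_)).mp h1
  change f (r • c) = φ r • f c
  simp only [f, AddMonoidHom.coe_mk, ZeroHom.coe_mk, Pi.smul_apply, smul_eq_mul, map_mul,
    Finset.smul_sum, mul_smul]

end Fermat.Agent.S57
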