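import Mathlib

set_option autoImplicit false

universe u

open CategoryTheory Abelian IsLocalRing Module RingTheory.Sequence Pointwise

namespace Fermat.Agent.S57

section aux

variable {S : Type u} [CommRing S] {L : Type u} [AddCommGroup L] [Module S L]

/-- A nonzero submodule `Q` of `L ⧸ K` pulls back to a strictly larger submodule of `L`
with the same quotient. -/
theorem comap_mkQ_gt_and_equiv (K : Submodule S L) (Q : Submodule S (L ⧸ K)) (hQ : Q ≠ ⊥) :
    K < Q.comap K.mkQ ∧ Nonempty (((L ⧸ K) ⧸ Q) ≃ₗ[S] (L ⧸ Q.comap K.mkQ)) := by
  have hle : K ≤ Q.comap K.mkQ := by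
    intro x hx
    simp only [Submodule.mem_comap, Submodule.mkQ_apply]
    rw [(Submodule.Quotient.mk_eq_zero K).mpr hx]
    exact Q.zero_mem
  have hmap : (Q.comap K.mkQ).map K.mkQ = Q :=
    Submodule.map_comap_eq_of_surjective (Submodule.mkQ_surjective K) Q
  refine ⟨lt_of_le_of_ne hle ?_, ⟨?_⟩⟩
  · intro heq
    apply hQ
    rw [← hmap, ← heq]
    simp
  · exact (Submodule.quotEquivOfEq _ _ hmap.symm).trans
      (Submodule.quotientQuotientEquivQuotient K (Q.comap K.mkQ) hle)

end aux

variable {S : Type u} [CommRing S] [IsLocalRing S] [IsNoetherianRing S]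

/-- If the residue field of a Noetherian local ring has projective dimension `≤ n`,
so does every finitely generated module. -/
theorem hasProjectiveDimensionLT_of_residueField (n : ℕ)
    (hk : HasProjectiveDimensionLT (ModuleCat.of S (S ⧸ maximalIdeal S)) (n + 1))
    (L : Type u) [AddCommGroup L] [Module S L] [Module.Finite S L] :
    HasProjectiveDimensionLT (ModuleCat.of S L) (n + 1) := by
  suffices h : ∀ K : Submodule S L,
      HasProjectiveDimensionLT (ModuleCat.of S (L ⧸ K)) (n + 1) by
    have h0 := h ⊥
    exact hasProjectiveDimensionLT_of_iso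
      (Submodule.quotEquivOfEqBot (⊥ : Submodule S L) rfl).toModuleIso (n + 1)
  intro K
  induction K using IsNoetherian.induction with
  | hgt K ih =>
    by_cases htriv : Subsingleton (L ⧸ K)
    · have hz : Limits.IsZero (ModuleCat.of S (L ⧸ K)) :=
        ModuleCat.isZero_of_subsingleton _
      have := hz.hasProjectiveDimensionLT_zero
      exact hasProjectiveDimensionLT_of_ge _ 0 (n + 1) (Nat.zero_le _)
    · rw [not_subsingleton_iff_nontrivial] at htriv
      by_cases hreg : ∃ x ∈ maximalIdeal S, IsSMulRegular (L ⧸ K) x
      · obtain ⟨x, hx, hxreg⟩ := hreg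
        have hQ : (x • (⊤ : Submodule S (L ⧸ K))) ≠ ⊥ := by
          intro h0
          obtain ⟨y, hy⟩ := exists_ne (0 : L ⧸ K)
          apply hy
          apply hxreg
          have : x • y ∈ (x • (⊤ : Submodule S (L ⧸ K))) :=
            Submodule.smul_mem_pointwise_smul y x ⊤ trivial
          rw [h0] at this
          simpa using this
        obtain ⟨hlt, ⟨e⟩⟩ := comap_mkQ_gt_and_equiv K _ hQ
        have h1 := ih _ hlt
        have h2 : HasProjectiveDimensionLT (ModuleCat.of S (QuotSMulTop x (L ⧸ K))) (n + 1) :=
          hasProjectiveDimensionLT_of_iso e.symm.toModuleIso (n + 1)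
        have h3 := ModuleCat.projectiveDimension_quotSMulTop_eq_succ_of_isSMulRegular
          (ModuleCat.of S (L ⧸ K)) x hxreg hx
        rw [← projectiveDimension_lt_iff] at h2 ⊢
        rw [h3] at h2
        rw [Nat.cast_add, Nat.cast_one, ENat.WithBot.lt_add_one_iff] at h2 ⊢
        exact (ENat.WithBot.add_one_le_natCast_iff.mp h2).le
      · -- no regular element: the residue field embeds
        have hsub : ¬ Subsingleton ((S ⧸ maximalIdeal S) →ₗ[S] (L ⧸ K)) := by
          intro hs
          obtain ⟨r, hr, hrreg⟩ := IsSMulRegular.subsingleton_linearMap_iff.mp hs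
          rw [Ideal.annihilator_quotient] at hr
          exact hreg ⟨r, hr, hrreg⟩
        rw [not_subsingleton_iff_nontrivial] at hsub
        obtain ⟨f, hf⟩ := exists_ne (0 : (S ⧸ maximalIdeal S) →ₗ[S] (L ⧸ K))
        have hsimple : IsSimpleModule S (S ⧸ maximalIdeal S) :=
          isSimpleModule_iff_isCoatom.mpr (Ideal.isMaximal_def.mp inferInstance)
        have hinj : Function.Injective f := by
          rcases LinearMap.injective_or_eq_zero f with h | h
          · exact h
          · exact absurd h hf
        have hQ : LinearMap.range f ≠ ⊥ := by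
          rw [Ne, LinearMap.range_eq_bot]
          exact hf
        obtain ⟨hlt, ⟨e⟩⟩ := comap_mkQ_gt_and_equiv K _ hQ
        have h1 := ih _ hlt
        have h2 : HasProjectiveDimensionLT
            (ModuleCat.of S ((L ⧸ K) ⧸ LinearMap.range f)) (n + 1) :=
          hasProjectiveDimensionLT_of_iso e.symm.toModuleIso (n + 1)
        let SC := ModuleCat.shortComplexOfCompEqZero f (LinearMap.range f).mkQ
          (by ext; simp)
        have hSC : SC.ShortExact := by
          apply ModuleCat.shortComplex_shortExact
          · intro y
            simp only [SC, ModuleCat.hom_ofHom]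
            constructor
            · intro hy
              simpa using hy
            · rintro ⟨z, rfl⟩
              simp
          · exact hinj
          · exact Submodule.mkQ_surjective _
        exact hSC.hasProjectiveDimensionLT_X₂ (n + 1) hk h2

/-- **Maximal Cohen–Macaulay modules over a regular local ring are free.**
Let `S` be a Noetherian local ring whose maximal ideal is generated by an `S`-regular
sequence `xs`, and let `N` be a finite `S`-module admitting a (weakly) regular sequence `rs`
inside the maximal ideal with `xs.length ≤ rs.length`. Then `N` is free. -/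
theorem free_of_isWeaklyRegular_of_ofList_eq_maximalIdeal
    {N : Type u} [AddCommGroup N] [Module S N] [Module.Finite S N]
    (xs : List S) (hxs : IsWeaklyRegular S xs) (hgen : Ideal.ofList xs = maximalIdeal S)
    (rs : List S) (hrs : IsWeaklyRegular N rs) (hmem : ∀ r ∈ rs, r ∈ maximalIdeal S)
    (hlen : xs.length ≤ rs.length) : Module.Free S N := by
  rcases subsingleton_or_nontrivial N with hN | hN
  · exact Module.Free.of_subsingleton S N
  have hxmem : ∀ x ∈ xs, x ∈ maximalIdeal S := by
    intro x hx
    rw [← hgen]
    exact Ideal.subset_span hx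
  have hreg : IsRegular S xs :=
    RingTheory.Sequence.IsRegular.of_isWeaklyRegular_of_mem_maximalIdeal S hxmem hxs
  have hpdk := ModuleCat.projectiveDimension_quotient_eq_length.{u} xs hreg
  have hk : HasProjectiveDimensionLT (ModuleCat.of S (S ⧸ maximalIdeal S)) (xs.length + 1) := by
    rw [← projectiveDimension_lt_iff]
    have e : (Shrink.{u} (S ⧸ Ideal.ofList xs)) ≃ₗ[S] (S ⧸ maximalIdeal S) :=
      (Shrink.linearEquiv S _).trans (Submodule.quotEquivOfEq _ _ hgen)
    rw [← ModuleCat.projectiveDimension_eq_of_linearEquiv
      (M := ModuleCat.of S (Shrink.{u} (S ⧸ Ideal.ofList xs)))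
      (N := ModuleCat.of S (S ⧸ maximalIdeal S)) e, hpdk]
    exact_mod_cast Nat.lt_succ_self _
  have hG := hasProjectiveDimensionLT_of_residueField xs.length hk
    (N ⧸ Ideal.ofList rs • (⊤ : Submodule S N))
  have hpd := ModuleCat.projectiveDimension_quotient_eq_add_length_of_isWeaklyRegular
    (ModuleCat.of S N) rs hrs hmem
  rw [← projectiveDimension_lt_iff, hpd] at hG
  have hproj : HasProjectiveDimensionLT (ModuleCat.of S N) 1 := by
    rw [← projectiveDimension_lt_iff]
    generalize projectiveDimension (ModuleCat.of S N) = d at hG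
    induction d with
    | bot => exact WithBot.bot_lt_coe _
    | coe d =>
      induction d with
      | top =>
        exfalso
        have : ((⊤ : ℕ∞) : WithBot ℕ∞) + (rs.length : WithBot ℕ∞) = ((⊤ : ℕ∞) : WithBot ℕ∞) := by
          rw [← ENat.WithBot.coe_eq_natCast, ← WithBot.coe_add, top_add]
        rw [this] at hG
        rw [← ENat.WithBot.coe_eq_natCast, WithBot.coe_lt_coe] at hG
        exact not_top_lt hG
      | coe d =>
        have h1 : (((d : ℕ∞) : WithBot ℕ∞) + (rs.length : WithBot ℕ∞)) =
            ((d + rs.length : ℕ) : WithBot ℕ∞) := by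
          push_cast
          rfl
        rw [h1] at hG
        have h2 : d + rs.length < xs.length + 1 := by exact_mod_cast hG
        have h3 : d < 1 := by omega
        exact_mod_cast h3
  have hP : CategoryTheory.Projective (ModuleCat.of S N) :=
    projective_iff_hasProjectiveDimensionLT_one.mpr hproj
  have hP' : Module.Projective S N := (IsProjective.iff_projective N).mpr hP
  exact Module.free_of_flat_of_isLocalRing

end Fermat.Agent.S57
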