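import Mathlib

set_option autoImplicit false

namespace Fermat.Agent.S57

open MvPowerSeries

section General

variable {σ : Type*} {A : Type*} [CommRing A]

theorem single_le_iff_ne_zero (a : σ) (m : σ →₀ ℕ) :
    Finsupp.single a 1 ≤ m ↔ m a ≠ 0 := by
  classical
  constructor
  · intro hle hma
    have := hle a
    simp [hma] at this
  · intro hma j
    by_cases hj : j = a
    · subst hj
      simp
      omega
    · simp [Ne.symm hj]

/-- Coefficientwise description of the ideal generated by the variables `X j`, `j ∈ T`. -/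
theorem mem_span_X_image_iff [DecidableEq σ] (T : Finset σ) (f : MvPowerSeries σ A) :
    f ∈ Ideal.span ((fun j => (X j : MvPowerSeries σ A)) '' (T : Set σ)) ↔
      ∀ m : σ →₀ ℕ, (∀ j ∈ T, m j = 0) → coeff m f = 0 := by
  constructor
  · intro hf
    induction hf using Submodule.span_induction with
    | mem x hx =>
      obtain ⟨j, hj, rfl⟩ := hx
      intro m hm
      rw [coeff_X, if_neg]
      rintro rfl
      have := hm j hj
      simp at this
    | zero => intro m _; simp
    | add x y _ _ hx hy => intro m hm; simp [hx m hm, hy m hm]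
    | smul a x _ hx =>
      intro m hm
      rw [smul_eq_mul, coeff_mul]
      refine Finset.sum_eq_zero fun p hp => ?_
      have hp' : p.1 + p.2 = m := Finset.HasAntidiagonal.mem_antidiagonal.mp hp
      have : coeff p.2 x = 0 := by
        refine hx p.2 fun j hj => ?_
        have h1 := hm j hj
        rw [← hp'] at h1
        simp only [Finsupp.coe_add, Pi.add_apply, Nat.add_eq_zero_iff] at h1
        exact h1.2
      rw [this, mul_zero]
  · induction T using Finset.induction_on generalizing f with
    | empty =>
      intro h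
      have : f = 0 := by
        ext m
        simpa using h m (by simp)
      rw [this]
      exact Submodule.zero_mem _
    | insert a T ha ih =>
      intro h
      -- `g` is `f` shifted by `X a`
      let g : MvPowerSeries σ A := fun m => coeff (m + Finsupp.single a 1) f
      have hg : ∀ m, coeff m g = coeff (m + Finsupp.single a 1) f := fun m => rfl
      have hXg : ∀ m, coeff m (X a * g) = if m a = 0 then 0 else coeff m f := by
        intro m
        rw [X_def, coeff_monomial_mul, one_mul]
        by_cases hma : m a = 0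
        · rw [if_neg, if_pos hma]
          rw [single_le_iff_ne_zero]
          simpa using hma
        · have hle : Finsupp.single a 1 ≤ m := (single_le_iff_ne_zero a m).mpr hma
          rw [if_pos hle, if_neg hma, hg, tsub_add_cancel_of_le hle]
      have hh : f - X a * g ∈ Ideal.span ((fun j => (X j : MvPowerSeries σ A)) '' (T : Set σ)) := by
        apply ih
        intro m hm
        rw [map_sub, hXg]
        by_cases hma : m a = 0
        · rw [if_pos hma, sub_zero]
          apply h
          intro j hj
          rcases Finset.mem_insert.mp hj with rfl | hj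
          · exact hma
          · exact hm j hj
        · rw [if_neg hma, sub_self]
      have h1 : X a * g ∈ Ideal.span ((fun j => (X j : MvPowerSeries σ A)) ''
          ((insert a T : Finset σ) : Set σ)) :=
        Ideal.mul_mem_right _ _ (Ideal.subset_span ⟨a, by simp, rfl⟩)
      have h2 : f - X a * g ∈ Ideal.span ((fun j => (X j : MvPowerSeries σ A)) ''
          ((insert a T : Finset σ) : Set σ)) := by
        refine Ideal.span_mono ?_ hh
        apply Set.image_mono
        simp
      have := Ideal.add_mem _ h2 h1
      simpa using this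

/-- `X a` is regular modulo the ideal generated by the `X j`, `j ∈ T`, when `a ∉ T`. -/
theorem mem_span_X_image_of_X_mul_mem [DecidableEq σ] (T : Finset σ) {a : σ} (ha : a ∉ T)
    (f : MvPowerSeries σ A)
    (hf : X a * f ∈ Ideal.span ((fun j => (X j : MvPowerSeries σ A)) '' (T : Set σ))) :
    f ∈ Ideal.span ((fun j => (X j : MvPowerSeries σ A)) '' (T : Set σ)) := by
  rw [mem_span_X_image_iff] at hf ⊢
  intro m hm
  have := hf (Finsupp.single a 1 + m) (fun j hj => by
    have hja : a ≠ j := by rintro rfl; exact ha hj
    simp [hm j hj, hja])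
  rwa [X_def, coeff_add_monomial_mul, one_mul] at this

/-- A nonzero constant is regular modulo the ideal generated by all the variables. -/
theorem mem_span_X_univ_of_C_mul_mem [Fintype σ] [DecidableEq σ] [IsDomain A] {c : A} (hc : c ≠ 0)
    (f : MvPowerSeries σ A)
    (hf : C c * f ∈ Ideal.span ((fun j => (X j : MvPowerSeries σ A)) ''
      ((Finset.univ : Finset σ) : Set σ))) :
    f ∈ Ideal.span ((fun j => (X j : MvPowerSeries σ A)) '' ((Finset.univ : Finset σ) : Set σ)) := by
  rw [mem_span_X_image_iff] at hf ⊢
  intro m hm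
  have hm0 : m = 0 := by
    ext j
    exact hm j (Finset.mem_univ j)
  subst hm0
  have := hf 0 (by simp)
  rw [coeff_C_mul] at this
  exact (mul_eq_zero.mp this).resolve_left hc

theorem ofList_map_X [DecidableEq σ] (l : List σ) :
    Ideal.ofList (l.map fun j => (X j : MvPowerSeries σ A)) =
      Ideal.span ((fun j => (X j : MvPowerSeries σ A)) '' ((l.toFinset : Finset σ) : Set σ)) := by
  unfold Ideal.ofList
  congr 1
  ext x
  simp

theorem isWeaklyRegular_map_X [DecidableEq σ] (l : List σ) (hl : l.Nodup) :
    RingTheory.Sequence.IsWeaklyRegular (MvPowerSeries σ A)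
      (l.map fun j => (X j : MvPowerSeries σ A)) := by
  induction l using List.reverseRecOn with
  | nil => simp
  | append_singleton l a ih =>
    have hl' := List.nodup_append.mp hl
    rw [List.map_append, RingTheory.Sequence.isWeaklyRegular_append_iff]
    refine ⟨ih hl'.1, ?_⟩
    rw [List.map_singleton, RingTheory.Sequence.isWeaklyRegular_singleton_iff,
      isSMulRegular_quotient_iff_mem_of_smul_mem]
    have ha : a ∉ l.toFinset := by
      intro h
      exact hl'.2.2 a (List.mem_toFinset.mp h) a (by simp) rfl
    intro f hf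
    rw [smul_eq_mul, Ideal.mul_top, ofList_map_X] at hf ⊢
    exact mem_span_X_image_of_X_mul_mem _ ha f hf

end General

section RegSeq

variable (𝒪 : Type) [CommRing 𝒪] (r : ℕ)

/-- The sequence `X 0, …, X (r-1), C ϖ` in `𝒪⟦X_0, …, X_{r-1}⟧`. -/
noncomputable def regSeq (ϖ : 𝒪) : List (MvPowerSeries (Fin r) 𝒪) :=
  (List.ofFn fun i : Fin r => (MvPowerSeries.X i : MvPowerSeries (Fin r) 𝒪)) ++ [MvPowerSeries.C ϖ]

variable {𝒪}

theorem ofList_ofFn_X :
    Ideal.ofList (List.ofFn fun i : Fin r => (MvPowerSeries.X i : MvPowerSeries (Fin r) 𝒪)) =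
      Ideal.span ((fun j => (X j : MvPowerSeries (Fin r) 𝒪)) ''
        ((Finset.univ : Finset (Fin r)) : Set (Fin r))) := by
  rw [List.ofFn_eq_map, ofList_map_X]
  congr 2
  ext x
  simp

theorem mem_ofList_ofFn_X_iff (f : MvPowerSeries (Fin r) 𝒪) :
    f ∈ Ideal.ofList (List.ofFn fun i : Fin r => (MvPowerSeries.X i : MvPowerSeries (Fin r) 𝒪)) ↔
      MvPowerSeries.constantCoeff f = 0 := by
  rw [ofList_ofFn_X, mem_span_X_image_iff]
  constructor
  · intro h
    rw [← coeff_zero_eq_constantCoeff_apply]
    exact h 0 (by simp)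
  · intro h m hm
    have hm0 : m = 0 := by
      ext j
      exact hm j (Finset.mem_univ j)
    subst hm0
    rw [coeff_zero_eq_constantCoeff_apply]
    exact h

theorem regSeq_isWeaklyRegular [IsDomain 𝒪] {ϖ : 𝒪} (hϖ : ϖ ≠ 0) :
    RingTheory.Sequence.IsWeaklyRegular (MvPowerSeries (Fin r) 𝒪) (regSeq 𝒪 r ϖ) := by
  unfold regSeq
  rw [RingTheory.Sequence.isWeaklyRegular_append_iff]
  refine ⟨?_, ?_⟩
  · rw [List.ofFn_eq_map]
    exact isWeaklyRegular_map_X _ (List.nodup_finRange r)
  · rw [RingTheory.Sequence.isWeaklyRegular_singleton_iff,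
      isSMulRegular_quotient_iff_mem_of_smul_mem]
    intro f hf
    rw [smul_eq_mul, Ideal.mul_top, ofList_ofFn_X] at hf ⊢
    exact mem_span_X_univ_of_C_mul_mem hϖ f hf

theorem ofList_regSeq_eq_maximalIdeal [IsDomain 𝒪] [IsDiscreteValuationRing 𝒪] {ϖ : 𝒪}
    (hϖ : Irreducible ϖ) :
    Ideal.ofList (regSeq 𝒪 r ϖ) = IsLocalRing.maximalIdeal (MvPowerSeries (Fin r) 𝒪) := by
  unfold regSeq
  rw [Ideal.ofList_append, Ideal.ofList_singleton]
  apply le_antisymm
  · rw [sup_le_iff]
    constructor
    · intro f hf
      rw [mem_ofList_ofFn_X_iff] at hf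
      rw [IsLocalRing.mem_maximalIdeal, mem_nonunits_iff, MvPowerSeries.isUnit_iff_constantCoeff, hf]
      exact not_isUnit_zero
    · rw [Ideal.span_singleton_le_iff_mem, IsLocalRing.mem_maximalIdeal, mem_nonunits_iff,
        MvPowerSeries.isUnit_iff_constantCoeff, MvPowerSeries.constantCoeff_C]
      exact hϖ.not_isUnit
  · intro f hf
    rw [IsLocalRing.mem_maximalIdeal, mem_nonunits_iff, MvPowerSeries.isUnit_iff_constantCoeff,
      ← mem_nonunits_iff, ← IsLocalRing.mem_maximalIdeal, hϖ.maximalIdeal_eq,
      Ideal.mem_span_singleton] at hf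
    obtain ⟨a, ha⟩ := hf
    have h1 : f - C ϖ * C a ∈ Ideal.ofList
        (List.ofFn fun i : Fin r => (MvPowerSeries.X i : MvPowerSeries (Fin r) 𝒪)) := by
      rw [mem_ofList_ofFn_X_iff]
      simp [ha]
    have h2 : C ϖ * C a ∈ Ideal.span {(C ϖ : MvPowerSeries (Fin r) 𝒪)} :=
      Ideal.mul_mem_right _ _ (Ideal.mem_span_singleton_self _)
    have := Submodule.add_mem_sup h1 h2
    simpa using this

end RegSeq

end Fermat.Agent.S57
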